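/-
Project S35, cell [ABEL] on the cover (helper13): THE RESIDUE FUNCTION FIELD OF A GAUSS VALUATION.
Prefix `s35kp_`.

`L` a field, `O` a discrete valuation ring of `L` with uniformiser `π`, `k` its residue field,
`E' ≤ gq_quotField O L ⊆ L((X))` a field of Gauss-bounded quotients (e.g. `lg_E L N'`), `V'` its Gauss
valuation ring (`gq_valSubOf`).

* `s35kp_redHom`  : the reduction `V' →+* k((X))` (`gq_res` on the underlying series);
* `s35kp_kappa`   : its image `κ' ⊆ k((X))`, an `IntermediateField k (k((X)))` — the function field of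
                    the reduced curve;
* `s35kp_red`     : `V' →+* κ'`, surjective, with kernel the maximal ideal;
* `s35kp_mem_kappa`, `s35kp_red_eq_zero_iff`, `s35kp_red_coe`, `s35kp_red_const`.
-/
import Mathlib
import Fermat.Agent.JT3.Bridge.GaussCenter

set_option autoImplicit false
set_option linter.unusedSectionVars false
set_option linter.unusedVariables false
set_option linter.style.haveILetI false

noncomputable section

namespace Fermat.Agent.S35

open ModularCurve IsLocalRing Fermat.Agent.JT3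

section Defs

variable {L : Type*} [Field L] (O : ValuationSubring L) [IsDiscreteValuationRing O] {π : O}
  (hπ : Irreducible π)
  (E' : IntermediateField L (LaurentSeries L)) (hE' : E' ≤ gq_quotField O L)

/-- the Gauss valuation ring of `E'` (abbreviation). -/
abbrev s35kp_V : ValuationSubring ↥E' := gq_valSubOf π hπ.ne_zero hπ.maximalIdeal_eq E' hE'

/-- the inclusion of the Gauss valuation ring of `E'` into the ring of bounded quotients. -/
def s35kp_toBdd : ↥(s35kp_V O hπ E' hE') →+* ↥(gq_bddSubring O L) where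
  toFun z := ⟨((z : ↥E') : LaurentSeries L), z.2⟩
  map_one' := rfl
  map_mul' _ _ := rfl
  map_zero' := rfl
  map_add' _ _ := rfl

/-- **the reduction homomorphism** of the Gauss valuation ring of `E'`, with values in `k((X))`. -/
def s35kp_redHom : ↥(s35kp_V O hπ E' hE') →+* LaurentSeries (ResidueField O) :=
  (gq_res O L).comp (s35kp_toBdd O hπ E' hE')

theorem s35kp_redHom_apply (z : ↥(s35kp_V O hπ E' hE')) :
    s35kp_redHom O hπ E' hE' z = gq_res O L ⟨((z : ↥E') : LaurentSeries L), z.2⟩ := rfl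

/-- the kernel of the reduction is the maximal ideal. -/
theorem s35kp_redHom_eq_zero_iff (z : ↥(s35kp_V O hπ E' hE')) :
    s35kp_redHom O hπ E' hE' z = 0 ↔ (z : ↥E') ∈ (s35kp_V O hπ E' hE').nonunits := by
  rw [s35kp_redHom_apply]
  exact (gq_mem_nonunits_iff_res π hπ.ne_zero hπ.maximalIdeal_eq E' hE' (z : ↥E') z.2).symm

/-- the reduction of a constant. -/
theorem s35kp_redHom_const (c : O) :
    s35kp_redHom O hπ E' hE'
        ⟨algebraMap L ↥E' (c : L), gq_algebraMap_mem_valSubOf π hπ.ne_zero hπ.maximalIdeal_eq E' hE' c⟩ =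
      algebraMap (ResidueField O) (LaurentSeries (ResidueField O)) (residue O c) := by
  rw [s35kp_redHom_apply, ← gq_res_constHom (K := L) c]
  congr 1

/-- **the residue function field** `κ' ⊆ k((X))` of the Gauss valuation of `E'`. -/
def s35kp_kappa : IntermediateField (ResidueField O) (LaurentSeries (ResidueField O)) where
  carrier := Set.range (s35kp_redHom O hπ E' hE')
  mul_mem' := by
    rintro _ _ ⟨a, rfl⟩ ⟨b, rfl⟩
    exact ⟨a * b, map_mul _ a b⟩
  add_mem' := by
    rintro _ _ ⟨a, rfl⟩ ⟨b, rfl⟩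
    exact ⟨a + b, map_add _ a b⟩
  algebraMap_mem' := by
    intro c
    obtain ⟨o, rfl⟩ := residue_surjective c
    exact ⟨_, s35kp_redHom_const O hπ E' hE' o⟩
  inv_mem' := by
    rintro _ ⟨a, rfl⟩
    by_cases h0 : s35kp_redHom O hπ E' hE' a = 0
    · rw [h0, inv_zero]
      exact ⟨0, map_zero _⟩
    · have hnu : (a : ↥E') ∉ (s35kp_V O hπ E' hE').nonunits := fun h =>
        h0 ((s35kp_redHom_eq_zero_iff O hπ E' hE' a).2 h)
      have hu : IsUnit a := by
        by_contra hna
        exact hnu ((ValuationSubring.coe_mem_nonunits_iff (A := s35kp_V O hπ E' hE')).2 hna)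
      obtain ⟨u, rfl⟩ := hu
      refine ⟨((u⁻¹ : (↥(s35kp_V O hπ E' hE'))ˣ) : ↥(s35kp_V O hπ E' hE')), ?_⟩
      have h1 : s35kp_redHom O hπ E' hE' (u : ↥(s35kp_V O hπ E' hE')) *
          s35kp_redHom O hπ E' hE' ((u⁻¹ : (↥(s35kp_V O hπ E' hE'))ˣ) :
            ↥(s35kp_V O hπ E' hE')) = 1 := by
        rw [← map_mul, ← Units.val_mul, mul_inv_cancel, Units.val_one, map_one]
      exact eq_inv_of_mul_eq_one_right h1

theorem s35kp_mem_kappa {y : LaurentSeries (ResidueField O)} :
    y ∈ s35kp_kappa O hπ E' hE' ↔ ∃ z : ↥(s35kp_V O hπ E' hE'), s35kp_redHom O hπ E' hE' z = y :=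
  Iff.rfl

/-- **the reduction** `V' →+* κ'`. -/
def s35kp_red : ↥(s35kp_V O hπ E' hE') →+* ↥(s35kp_kappa O hπ E' hE') :=
  (s35kp_redHom O hπ E' hE').codRestrict (s35kp_kappa O hπ E' hE').toSubring
    (fun z => ⟨z, rfl⟩)

@[simp] theorem s35kp_red_coe (z : ↥(s35kp_V O hπ E' hE')) :
    ((s35kp_red O hπ E' hE' z : ↥(s35kp_kappa O hπ E' hE')) : LaurentSeries (ResidueField O)) =
      s35kp_redHom O hπ E' hE' z := rfl

theorem s35kp_red_surjective : Function.Surjective (s35kp_red O hπ E' hE') := by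
  rintro ⟨y, z, rfl⟩
  exact ⟨z, rfl⟩

theorem s35kp_red_eq_zero_iff (z : ↥(s35kp_V O hπ E' hE')) :
    s35kp_red O hπ E' hE' z = 0 ↔ (z : ↥E') ∈ (s35kp_V O hπ E' hE').nonunits := by
  rw [← s35kp_redHom_eq_zero_iff]
  constructor
  · intro h
    have := congrArg (fun w : ↥(s35kp_kappa O hπ E' hE') =>
      (w : LaurentSeries (ResidueField O))) h
    exact this
  · intro h
    exact Subtype.ext h

/-- the reduction of a constant is the constant. -/
theorem s35kp_red_const (c : O) :
    s35kp_red O hπ E' hE'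
        ⟨algebraMap L ↥E' (c : L), gq_algebraMap_mem_valSubOf π hπ.ne_zero hπ.maximalIdeal_eq E' hE' c⟩ =
      algebraMap (ResidueField O) ↥(s35kp_kappa O hπ E' hE') (residue O c) :=
  Subtype.ext (s35kp_redHom_const O hπ E' hE' c)

/-- bounded elements of `E'` and their reductions, in "series" form. -/
theorem s35kp_mem_kappa_of_bdd {z : LaurentSeries L} (hz : z ∈ E') (hb : gq_IsBdd O L z) :
    gq_res O L ⟨z, hb⟩ ∈ s35kp_kappa O hπ E' hE' :=
  ⟨⟨⟨z, hz⟩, hb⟩, rfl⟩

end Defs

end Fermat.Agent.S35
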