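/-
Project S35, cell [ABEL] on the cover (helper13): FINITENESS OF THE RESIDUE FUNCTION FIELD.
Prefix `s35kp_`.

Context of `S35/Kappa/Defs.lean`.  `x' ∈ E'` the image of a series `xs` over `O` whose reduction is
transcendental over `k`; `x̄' = red x' ∈ κ'`.

* `s35kp_red_mem_adjoin` : the reduction of a Gauss-bounded element of `L(x')` lies in `k(x̄')`;
* `s35kp_finiteDimensional` : `[E' : L(x')] < ∞ ⟹ [κ' : k(x̄')] < ∞` (the inequality `f ≤ n`: linearly
  independent residues lift to linearly independent elements, after dividing a relation by its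
  coefficient of maximal Gauss valuation).
-/
import Mathlib
import Fermat.Agent.S35.Kappa.Defs

set_option autoImplicit false
set_option linter.unusedSectionVars false
set_option linter.unusedVariables false
set_option linter.style.haveILetI false

noncomputable section

namespace Fermat.Agent.S35

open ModularCurve IsLocalRing Polynomial IntermediateField Fermat.Agent.JT3

section Finite

variable {L : Type*} [Field L] (O : ValuationSubring L) [IsDiscreteValuationRing O] {π : O}
  (hπ : Irreducible π)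
  (E' : IntermediateField L (LaurentSeries L)) (hE' : E' ≤ gq_quotField O L)
  (xs : LaurentSeries O) (x' : ↥E')
  (hx' : (x' : LaurentSeries L) = coeffMap (algebraMap O L) xs)

include hx' in
theorem s35kp_x_mem : x' ∈ s35kp_V O hπ E' hE' := by
  show gq_IsBdd O L (x' : LaurentSeries L)
  rw [hx']
  exact gq_isBdd_iota xs

/-- the reduction of the coordinate, as an element of `κ'`. -/
def s35kp_xbar : ↥(s35kp_kappa O hπ E' hE') :=
  s35kp_red O hπ E' hE' ⟨x', s35kp_x_mem O hπ E' hE' xs x' hx'⟩

theorem s35kp_xbar_coe :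
    ((s35kp_xbar O hπ E' hE' xs x' hx' : ↥(s35kp_kappa O hπ E' hE')) :
      LaurentSeries (ResidueField O)) = coeffMap (residue O) xs := by
  show gq_res O L _ = _
  exact gq_res_of_eq_iota _ xs hx'

variable (htr : ∀ p : (ResidueField O)[X], aeval (coeffMap (residue O) xs) p = 0 → p = 0)

include htr in
/-- **the reduction of a bounded element of `L(x')` lies in `k(x̄')`.** -/
theorem s35kp_red_mem_adjoin (c : ↥(s35kp_V O hπ E' hE')) (hc : (c : ↥E') ∈ L⟮x'⟯) :
    s35kp_red O hπ E' hE' c ∈ (ResidueField O)⟮s35kp_xbar O hπ E' hE' xs x' hx'⟯ := by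
  -- transfer to series
  have hmem : ((c : ↥E') : LaurentSeries L) ∈
      IntermediateField.adjoin L {coeffMap (algebraMap O L) xs} := by
    have h1 : E'.val (c : ↥E') ∈ (L⟮x'⟯).map E'.val := ⟨(c : ↥E'), hc, rfl⟩
    rw [IntermediateField.adjoin_map, Set.image_singleton] at h1
    have h2 : E'.val x' = coeffMap (algebraMap O L) xs := hx'
    rw [h2] at h1
    exact h1
  obtain ⟨a, b, hb, hab⟩ := (gq_isBdd_adjoin_simple_iff π hπ.ne_zero hπ.maximalIdeal_eq xs htr
    ((c : ↥E') : LaurentSeries L) hmem).1 c.2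
  have hb' : coeffMap (residue O) (aeval xs b) ≠ 0 := by
    rw [gq_red_aeval]
    intro h0
    exact hb (htr _ h0)
  set xb := s35kp_xbar O hπ E' hE' xs x' hx' with hxb
  have hcoe : ∀ p : (ResidueField O)[X],
      ((aeval xb p : ↥(s35kp_kappa O hπ E' hE')) : LaurentSeries (ResidueField O)) =
        aeval (coeffMap (residue O) xs) p := by
    intro p
    have := Polynomial.aeval_algHom_apply (s35kp_kappa O hπ E' hE').val xb p
    rw [← s35kp_xbar_coe O hπ E' hE' xs x' hx']
    exact this.symm
  have hres : gq_res O L ⟨((c : ↥E') : LaurentSeries L), c.2⟩ =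
      coeffMap (residue O) (aeval xs a) / coeffMap (residue O) (aeval xs b) :=
    gq_res_eq (⟨((c : ↥E') : LaurentSeries L), c.2⟩ : ↥(gq_bddSubring O L)) hb' hab
  have hval : s35kp_red O hπ E' hE' c =
      aeval xb (a.map (residue O)) / aeval xb (b.map (residue O)) := by
    apply Subtype.ext
    rw [IntermediateField.coe_div, hcoe, hcoe, ← gq_red_aeval, ← gq_red_aeval, ← hres]
    rfl
  rw [hval]
  have hx : xb ∈ (ResidueField O)⟮xb⟯ := mem_adjoin_simple_self _ xb
  have hp : ∀ p : (ResidueField O)[X], aeval xb p ∈ (ResidueField O)⟮xb⟯ := by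
    intro p
    rw [Polynomial.aeval_eq_sum_range]
    refine sum_mem fun i _ => ?_
    rw [Algebra.smul_def]
    exact mul_mem (IntermediateField.algebraMap_mem _ _) (pow_mem hx i)
  exact div_mem (hp _) (hp _)

include htr in
/-- **`[κ' : k(x̄')] < ∞`** as soon as `[E' : L(x')] < ∞`. -/
theorem s35kp_finiteDimensional [FiniteDimensional L⟮x'⟯ ↥E'] :
    FiniteDimensional (ResidueField O)⟮s35kp_xbar O hπ E' hE' xs x' hx'⟯
      ↥(s35kp_kappa O hπ E' hE') := by
  classical
  set xb := s35kp_xbar O hπ E' hE' xs x' hx' with hxb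
  set V := s35kp_V O hπ E' hE' with hV
  rw [FiniteDimensional, ← Module.rank_lt_aleph0_iff]
  refine lt_of_le_of_lt (rank_le (n := Module.finrank L⟮x'⟯ ↥E') ?_) Cardinal.natCast_lt_aleph0
  intro s hs
  -- lifts
  choose lift hlift using fun y : ↥(s35kp_kappa O hπ E' hE') => s35kp_red_surjective O hπ E' hE' y
  have hli : LinearIndependent L⟮x'⟯ (fun i : s => ((lift (i : ↥(s35kp_kappa O hπ E' hE')) :
      ↥V) : ↥E')) := by
    rw [Fintype.linearIndependent_iff]
    intro c hc
    by_contra hne
    push Not at hne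
    obtain ⟨j, hj⟩ := hne
    -- the coefficient of maximal valuation
    obtain ⟨i0, -, hi0⟩ := Finset.exists_max_image (Finset.univ : Finset s)
      (fun i => V.valuation ((c i : L⟮x'⟯) : ↥E')) ⟨j, Finset.mem_univ j⟩
    have hci0 : ((c i0 : L⟮x'⟯) : ↥E') ≠ 0 := by
      intro h0
      have h1 := hi0 j (Finset.mem_univ j)
      rw [h0, map_zero] at h1
      have h2 : V.valuation ((c j : L⟮x'⟯) : ↥E') = 0 := le_antisymm h1 zero_le
      rw [map_eq_zero] at h2
      exact hj (Subtype.ext h2)
    -- normalised coefficients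
    have hcV : ∀ i : s, ((c i : L⟮x'⟯) : ↥E') / ((c i0 : L⟮x'⟯) : ↥E') ∈ V := by
      intro i
      rw [← V.valuation_le_one_iff, map_div₀]
      have hpos : V.valuation ((c i0 : L⟮x'⟯) : ↥E') ≠ 0 := by
        rw [Ne, map_eq_zero]; exact hci0
      rw [div_le_one₀ (zero_lt_iff.mpr hpos)]
      exact hi0 i (Finset.mem_univ i)
    set d : s → ↥V := fun i => ⟨_, hcV i⟩ with hd
    have hdL : ∀ i : s, ((d i : ↥V) : ↥E') ∈ L⟮x'⟯ := fun i =>
      div_mem (c i).2 (c i0).2
    -- the relation in `V`
    have hrel : ∑ i : s, d i * lift (i : ↥(s35kp_kappa O hπ E' hE')) = 0 := by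
      apply Subtype.ext
      have h1 : ((∑ i : s, d i * lift (i : ↥(s35kp_kappa O hπ E' hE')) : ↥V) : ↥E') =
          ∑ i : s, ((d i : ↥V) : ↥E') * ((lift (i : ↥(s35kp_kappa O hπ E' hE')) : ↥V) : ↥E') := by
        rw [← V.subtype_apply, map_sum]
        rfl
      rw [h1]
      have h2 : ∑ i : s, ((d i : ↥V) : ↥E') * ((lift (i : ↥(s35kp_kappa O hπ E' hE')) : ↥V) : ↥E') =
          (((c i0 : L⟮x'⟯) : ↥E'))⁻¹ * ∑ i : s, (c i) • ((lift (i : ↥(s35kp_kappa O hπ E' hE')) :
            ↥V) : ↥E') := by
        rw [Finset.mul_sum]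
        refine Finset.sum_congr rfl fun i _ => ?_
        show ((c i : L⟮x'⟯) : ↥E') / ((c i0 : L⟮x'⟯) : ↥E') * _ = _
        rw [IntermediateField.smul_def, smul_eq_mul]
        ring
      rw [h2, hc, mul_zero]
      rfl
    -- reduce
    have hred := congrArg (s35kp_red O hπ E' hE') hrel
    rw [map_sum, map_zero] at hred
    simp only [map_mul, hlift] at hred
    -- coefficients in `k(x̄')`
    have hmem : ∀ i : s, s35kp_red O hπ E' hE' (d i) ∈ (ResidueField O)⟮xb⟯ := fun i =>
      s35kp_red_mem_adjoin O hπ E' hE' xs x' hx' htr (d i) (hdL i)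
    have hs' := Fintype.linearIndependent_iff.mp hs
      (fun i => (⟨s35kp_red O hπ E' hE' (d i), hmem i⟩ : (ResidueField O)⟮xb⟯)) (by
        rw [← hred]
        refine Finset.sum_congr rfl fun i _ => ?_
        rw [IntermediateField.smul_def, smul_eq_mul]) i0
    have h1 : s35kp_red O hπ E' hE' (d i0) = 1 := by
      have : d i0 = 1 := by
        apply Subtype.ext
        show ((c i0 : L⟮x'⟯) : ↥E') / ((c i0 : L⟮x'⟯) : ↥E') = 1
        exact div_self hci0
      rw [this, map_one]
    have h2 := congrArg (fun w : (ResidueField O)⟮xb⟯ => (w : ↥(s35kp_kappa O hπ E' hE'))) hs'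
    simp only at h2
    rw [h1] at h2
    exact one_ne_zero h2
  have := hli.fintype_card_le_finrank
  simpa using this

end Finite

end Fermat.Agent.S35
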