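/-
Project S35, cell [ABEL-SS] (helper13): DEGREE BOUND AND MONOTONICITY OF THE RESIDUE FUNCTION FIELD
`κ'` (`S35/Kappa/Defs.lean`).  Prefix `s35kp_`.

* `s35kp_rank_le`, `s35kp_finrank_le` : `[κ' : k(x̄')] ≤ [E' : L(x')]` (the proof of
  `s35kp_finiteDimensional`, with the bound kept);
* `s35kp_kappa_map_mem` : for `f : L → L'` mapping `O` into `O'` and inducing `f̄ : k → k'`, and
  `coeffMap f '' E' ⊆ E''`: `coeffMap f̄` maps `κ'(E')` into `κ'(E'')`, with
  `coeffMap f̄ (red z) = red (coeffMap f z)` (`s35kp_res_map`).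
-/
import Mathlib
import Fermat.Agent.S35.Kappa.Finite

set_option autoImplicit false
set_option linter.unusedSectionVars false
set_option linter.unusedVariables false
set_option linter.style.haveILetI false

noncomputable section

namespace Fermat.Agent.S35

open ModularCurve IsLocalRing Polynomial IntermediateField Fermat.Agent.JT3

section Degree

variable {L : Type*} [Field L] (O : ValuationSubring L) [IsDiscreteValuationRing O] {π : O}
  (hπ : Irreducible π)
  (E' : IntermediateField L (LaurentSeries L)) (hE' : E' ≤ gq_quotField O L)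
  (xs : LaurentSeries O) (x' : ↥E')
  (hx' : (x' : LaurentSeries L) = coeffMap (algebraMap O L) xs)
  (htr : ∀ p : (ResidueField O)[X], aeval (coeffMap (residue O) xs) p = 0 → p = 0)

include htr in
/-- **`[κ' : k(x̄')] ≤ [E' : L(x')]`** (cardinal form). -/
theorem s35kp_rank_le [FiniteDimensional L⟮x'⟯ ↥E'] :
    Module.rank (ResidueField O)⟮s35kp_xbar O hπ E' hE' xs x' hx'⟯
      ↥(s35kp_kappa O hπ E' hE') ≤ (Module.finrank L⟮x'⟯ ↥E' : Cardinal) := by
  classical
  set xb := s35kp_xbar O hπ E' hE' xs x' hx' with hxb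
  set V := s35kp_V O hπ E' hE' with hV
  refine rank_le (n := Module.finrank L⟮x'⟯ ↥E') ?_
  intro s hs
  -- lifts
  choose lift hlift using fun y : ↥(s35kp_kappa O hπ E' hE') => s35kp_red_surjective O hπ E' hE' y
  have hli : LinearIndependent L⟮x'⟯ (fun i : s => ((lift (i : ↥(s35kp_kappa O hπ E' hE')) :
      ↥V) : ↥E')) := by
    rw [Fintype.linearIndependent_iff]
    intro c hc
    by_contra hne
    push Not at hne
    obtain ⟨j, hj⟩ := hne
    -- the coefficient of maximal valuation
    obtain ⟨i0, -, hi0⟩ := Finset.exists_max_image (Finset.univ : Finset s)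
      (fun i => V.valuation ((c i : L⟮x'⟯) : ↥E')) ⟨j, Finset.mem_univ j⟩
    have hci0 : ((c i0 : L⟮x'⟯) : ↥E') ≠ 0 := by
      intro h0
      have h1 := hi0 j (Finset.mem_univ j)
      rw [h0, map_zero] at h1
      have h2 : V.valuation ((c j : L⟮x'⟯) : ↥E') = 0 := le_antisymm h1 zero_le
      rw [map_eq_zero] at h2
      exact hj (Subtype.ext h2)
    -- normalised coefficients
    have hcV : ∀ i : s, ((c i : L⟮x'⟯) : ↥E') / ((c i0 : L⟮x'⟯) : ↥E') ∈ V := by
      intro i
      rw [← V.valuation_le_one_iff, map_div₀]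
      have hpos : V.valuation ((c i0 : L⟮x'⟯) : ↥E') ≠ 0 := by
        rw [Ne, map_eq_zero]; exact hci0
      rw [div_le_one₀ (zero_lt_iff.mpr hpos)]
      exact hi0 i (Finset.mem_univ i)
    set d : s → ↥V := fun i => ⟨_, hcV i⟩ with hd
    have hdL : ∀ i : s, ((d i : ↥V) : ↥E') ∈ L⟮x'⟯ := fun i =>
      div_mem (c i).2 (c i0).2
    -- the relation in `V`
    have hrel : ∑ i : s, d i * lift (i : ↥(s35kp_kappa O hπ E' hE')) = 0 := by
      apply Subtype.ext
      have h1 : ((∑ i : s, d i * lift (i : ↥(s35kp_kappa O hπ E' hE')) : ↥V) : ↥E') =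
          ∑ i : s, ((d i : ↥V) : ↥E') * ((lift (i : ↥(s35kp_kappa O hπ E' hE')) : ↥V) : ↥E') := by
        rw [← V.subtype_apply, map_sum]
        rfl
      rw [h1]
      have h2 : ∑ i : s, ((d i : ↥V) : ↥E') * ((lift (i : ↥(s35kp_kappa O hπ E' hE')) : ↥V) : ↥E') =
          (((c i0 : L⟮x'⟯) : ↥E'))⁻¹ * ∑ i : s, (c i) • ((lift (i : ↥(s35kp_kappa O hπ E' hE')) :
            ↥V) : ↥E') := by
        rw [Finset.mul_sum]
        refine Finset.sum_congr rfl fun i _ => ?_
        show ((c i : L⟮x'⟯) : ↥E') / ((c i0 : L⟮x'⟯) : ↥E') * _ = _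
        rw [IntermediateField.smul_def, smul_eq_mul]
        ring
      rw [h2, hc, mul_zero]
      rfl
    -- reduce
    have hred := congrArg (s35kp_red O hπ E' hE') hrel
    rw [map_sum, map_zero] at hred
    simp only [map_mul, hlift] at hred
    -- coefficients in `k(x̄')`
    have hmem : ∀ i : s, s35kp_red O hπ E' hE' (d i) ∈ (ResidueField O)⟮xb⟯ := fun i =>
      s35kp_red_mem_adjoin O hπ E' hE' xs x' hx' htr (d i) (hdL i)
    have hs' := Fintype.linearIndependent_iff.mp hs
      (fun i => (⟨s35kp_red O hπ E' hE' (d i), hmem i⟩ : (ResidueField O)⟮xb⟯)) (by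
        rw [← hred]
        refine Finset.sum_congr rfl fun i _ => ?_
        rw [IntermediateField.smul_def, smul_eq_mul]) i0
    have h1 : s35kp_red O hπ E' hE' (d i0) = 1 := by
      have : d i0 = 1 := by
        apply Subtype.ext
        show ((c i0 : L⟮x'⟯) : ↥E') / ((c i0 : L⟮x'⟯) : ↥E') = 1
        exact div_self hci0
      rw [this, map_one]
    have h2 := congrArg (fun w : (ResidueField O)⟮xb⟯ => (w : ↥(s35kp_kappa O hπ E' hE'))) hs'
    simp only at h2
    rw [h1] at h2
    exact one_ne_zero h2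
  have := hli.fintype_card_le_finrank
  simpa using this


include htr in
/-- **`[κ' : k(x̄')] ≤ [E' : L(x')]`.** -/
theorem s35kp_finrank_le [FiniteDimensional L⟮x'⟯ ↥E'] :
    Module.finrank (ResidueField O)⟮s35kp_xbar O hπ E' hE' xs x' hx'⟯
      ↥(s35kp_kappa O hπ E' hE') ≤ Module.finrank L⟮x'⟯ ↥E' :=
  Module.finrank_le_of_rank_le (s35kp_rank_le O hπ E' hE' xs x' hx' htr)

end Degree

section Mono

variable {L L' : Type*} [Field L] [Field L']
  (O : ValuationSubring L) [IsDiscreteValuationRing O] {π : O} (hπ : Irreducible π)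
  (O' : ValuationSubring L') [IsDiscreteValuationRing O'] {π' : O'} (hπ' : Irreducible π')
  (E' : IntermediateField L (LaurentSeries L)) (hE' : E' ≤ gq_quotField O L)
  (E'' : IntermediateField L' (LaurentSeries L')) (hE'' : E'' ≤ gq_quotField O' L')
  (f : L →+* L') (hf : ∀ a ∈ O, f a ∈ O')
  (fbar : ResidueField O →+* ResidueField O')
  (hfbar : ∀ a : O, fbar (residue O a) = residue O' ⟨f a, hf a a.2⟩)

/-- the restriction `O → O'` of `f`. -/
def s35kp_restr : ↥O →+* ↥O' where
  toFun a := ⟨f (a : L), hf a a.2⟩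
  map_one' := Subtype.ext (map_one f)
  map_mul' a b := Subtype.ext (map_mul f (a : L) (b : L))
  map_zero' := Subtype.ext (map_zero f)
  map_add' a b := Subtype.ext (map_add f (a : L) (b : L))

theorem s35kp_restr_iota (y : LaurentSeries O) :
    coeffMap (algebraMap O' L') (coeffMap (s35kp_restr O O' f hf) y) =
      coeffMap f (coeffMap (algebraMap O L) y) := by
  rw [coeffMap_coeffMap, coeffMap_coeffMap]
  exact coeffMap_congr (RingHom.ext fun a => rfl) y

include hfbar in
theorem s35kp_restr_red (y : LaurentSeries O) :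
    coeffMap (residue O') (coeffMap (s35kp_restr O O' f hf) y) =
      coeffMap fbar (coeffMap (residue O) y) := by
  rw [coeffMap_coeffMap, coeffMap_coeffMap]
  exact coeffMap_congr (RingHom.ext fun a => (hfbar a).symm) y

include hfbar in
/-- `coeffMap f` maps `O`-bounded quotients to `O'`-bounded quotients. -/
theorem s35kp_isBdd_map {z : LaurentSeries L} (hz : gq_IsBdd O L z) :
    gq_IsBdd O' L' (coeffMap f z) := by
  obtain ⟨z1, z2, h2, h⟩ := hz
  refine ⟨coeffMap (s35kp_restr O O' f hf) z1, coeffMap (s35kp_restr O O' f hf) z2, ?_, ?_⟩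
  · rw [s35kp_restr_red O O' f hf fbar hfbar]
    exact (map_ne_zero (coeffMap fbar)).mpr h2
  · rw [s35kp_restr_iota, s35kp_restr_iota, ← map_mul, h]

include hfbar in
/-- **reduction commutes with the change of base**: `red' (coeffMap f z) = coeffMap f̄ (red z)`. -/
theorem s35kp_res_map {z : LaurentSeries L} (hz : gq_IsBdd O L z) :
    gq_res O' L' ⟨coeffMap f z, s35kp_isBdd_map O O' f hf fbar hfbar hz⟩ =
      coeffMap fbar (gq_res O L ⟨z, hz⟩) := by
  obtain ⟨z1, z2, h2, h⟩ := hz
  have h2' : coeffMap (residue O') (coeffMap (s35kp_restr O O' f hf) z2) ≠ 0 := by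
    rw [s35kp_restr_red O O' f hf fbar hfbar]
    exact (map_ne_zero (coeffMap fbar)).mpr h2
  have h' : coeffMap f z * coeffMap (algebraMap O' L') (coeffMap (s35kp_restr O O' f hf) z2) =
      coeffMap (algebraMap O' L') (coeffMap (s35kp_restr O O' f hf) z1) := by
    rw [s35kp_restr_iota, s35kp_restr_iota, ← map_mul, h]
  rw [gq_res_eq (O := ↥O') (K := L') ⟨coeffMap f z, _⟩ h2' h',
    gq_res_eq (O := ↥O) (K := L) ⟨z, _⟩ h2 h, map_div₀,
    s35kp_restr_red O O' f hf fbar hfbar, s35kp_restr_red O O' f hf fbar hfbar]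

include hfbar in
/-- **monotonicity of the residue function field**: if `coeffMap f` maps `E'` into `E''`, then
`coeffMap f̄` maps `κ'(E')` into `κ'(E'')`. -/
theorem s35kp_kappa_map_mem (hmap : ∀ z ∈ E', coeffMap f z ∈ E'')
    {y : LaurentSeries (ResidueField O)} (hy : y ∈ s35kp_kappa O hπ E' hE') :
    coeffMap fbar y ∈ s35kp_kappa O' hπ' E'' hE'' := by
  obtain ⟨z, rfl⟩ := hy
  have hb : gq_IsBdd O L ((z : ↥E') : LaurentSeries L) := z.2
  have h1 : coeffMap fbar (s35kp_redHom O hπ E' hE' z) =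
      gq_res O' L' ⟨coeffMap f ((z : ↥E') : LaurentSeries L),
        s35kp_isBdd_map O O' f hf fbar hfbar hb⟩ := by
    rw [s35kp_redHom_apply, s35kp_res_map O O' f hf fbar hfbar hb]
  rw [h1]
  exact s35kp_mem_kappa_of_bdd O' hπ' E'' hE'' (hmap _ (z : ↥E').2) _

end Mono

end Fermat.Agent.S35
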