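/-
Project S35, cell [ABEL] on the cover (helper13): THE FROBENIUS OF THE RESIDUE FUNCTION FIELD AND
[ABEL] FOR IT.  Prefix `s35kp_`.

* `s35kp_coeffAut K' ψ h h'` : for an intermediate field `K' ⊆ k((X))` stable under the coefficientwise
  action of `ψ : k ≃+* k` and of `ψ⁻¹`, the induced `SemilinearAut k K'` (generalises `ca_aut`);
* `s35kp_frob_mem`, `s35kp_frob_symm_mem` : `κ'` (`S35/Kappa/Defs.lean`) is stable under the
  coefficientwise Frobenius and its inverse, provided `E'` is stable under `coeffMap φ`, `coeffMap φ⁻¹`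
  for a Frobenius lift `φ` at `O` (`s35nf_FrobAt`), with `red (φ z) = Fr (red z)`;
* `s35kp_frob` : the Frobenius `SemilinearAut k κ'`;
* `s35kp_abel` : **[ABEL] for `κ'`** (instance of `s35b_abel_laurent`).
-/
import Mathlib
import Fermat.Agent.S35.Kappa.Finite
import Fermat.Agent.S35.NodeFrob.Gauss
import Fermat.Agent.S35.AbelLaurent

set_option autoImplicit false
set_option linter.unusedSectionVars false
set_option linter.unusedVariables false
set_option linter.style.haveILetI false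

noncomputable section

namespace Fermat.Agent.S35

open ModularCurve IsLocalRing Polynomial IntermediateField AlgebraicCurve Fermat.Agent.JT3
  Fermat.Agent.SS

/-! ### coefficientwise automorphisms of a stable intermediate field -/

section CoeffAut

variable {k : Type*} [Field k] (K' : IntermediateField k (LaurentSeries k)) (ψ : k ≃+* k)
  (h : ∀ y ∈ K', coeffMap (ψ : k →+* k) y ∈ K')
  (h' : ∀ y ∈ K', coeffMap (ψ.symm : k →+* k) y ∈ K')

/-- the coefficientwise ring automorphism of a stable intermediate field. -/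
def s35kp_coeffRingAut : ↥K' ≃+* ↥K' where
  toFun x := ⟨coeffMap (ψ : k →+* k) (x : LaurentSeries k), h _ x.2⟩
  invFun x := ⟨coeffMap (ψ.symm : k →+* k) (x : LaurentSeries k), h' _ x.2⟩
  left_inv x := Subtype.ext <| by
    show coeffMap (ψ.symm : k →+* k) (coeffMap (ψ : k →+* k) (x : LaurentSeries k))
      = (x : LaurentSeries k)
    rw [coeffMap_coeffMap,
      coeffMap_congr (g := RingHom.id k) (RingHom.ext fun a => ψ.symm_apply_apply a)
        (x : LaurentSeries k), coeffMap_id]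
  right_inv x := Subtype.ext <| by
    show coeffMap (ψ : k →+* k) (coeffMap (ψ.symm : k →+* k) (x : LaurentSeries k))
      = (x : LaurentSeries k)
    rw [coeffMap_coeffMap,
      coeffMap_congr (g := RingHom.id k) (RingHom.ext fun a => ψ.apply_symm_apply a)
        (x : LaurentSeries k), coeffMap_id]
  map_mul' x y :=
    Subtype.ext (map_mul (coeffMap (ψ : k →+* k)) (x : LaurentSeries k) (y : LaurentSeries k))
  map_add' x y :=
    Subtype.ext (map_add (coeffMap (ψ : k →+* k)) (x : LaurentSeries k) (y : LaurentSeries k))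

theorem s35kp_coeffRingAut_algebraMap (a : k) :
    s35kp_coeffRingAut K' ψ h h' (algebraMap k ↥K' a) = algebraMap k ↥K' (ψ a) :=
  Subtype.ext (coeffMap_algebraMap (ψ : k →+* k) a)

/-- **the coefficientwise semilinear automorphism** of a stable intermediate field. -/
def s35kp_coeffAut : SemilinearAut k ↥K' :=
  ⟨(s35kp_coeffRingAut K' ψ h h', ψ), fun a => s35kp_coeffRingAut_algebraMap K' ψ h h' a⟩

@[simp] theorem s35kp_coeffAut_smul_coe (x : ↥K') :
    ((s35kp_coeffAut K' ψ h h' • x : ↥K') : LaurentSeries k) =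
      coeffMap (ψ : k →+* k) (x : LaurentSeries k) := rfl

@[simp] theorem s35kp_coeffAut_baseAut :
    SemilinearAut.baseAut (s35kp_coeffAut K' ψ h h') = ψ := rfl

end CoeffAut

/-! ### the Frobenius of `κ'` -/

section Frob

variable {L : Type*} [Field L] (O : ValuationSubring L) [IsDiscreteValuationRing O] {π : O}
  (hπ : Irreducible π)
  (E' : IntermediateField L (LaurentSeries L)) (hE' : E' ≤ gq_quotField O L)
  {q : ℕ} [hq : Fact q.Prime] [CharP (ResidueField O) q] [NeZero q]
  {φ : L ≃+* L} (hφ : s35nf_FrobAt O φ q)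
  (hφE : ∀ z ∈ E', coeffMap (φ : L →+* L) z ∈ E')
  (hφE' : ∀ z ∈ E', coeffMap (φ.symm : L →+* L) z ∈ E')

include hφ hφE in
/-- `κ'` is stable under the coefficientwise Frobenius: `Fr (red z) = red (φ z)`. -/
theorem s35kp_frob_mem {y : LaurentSeries (ResidueField O)} (hy : y ∈ s35kp_kappa O hπ E' hE') :
    coeffMap (frobenius (ResidueField O) q) y ∈ s35kp_kappa O hπ E' hE' := by
  obtain ⟨z, rfl⟩ := hy
  rw [s35kp_redHom_apply, ← s35nf_res hφ ⟨((z : ↥E') : LaurentSeries L), z.2⟩]
  exact s35kp_mem_kappa_of_bdd O hπ E' hE' (hφE _ (z : ↥E').2) _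

include hφ hφE hφE' in
/-- `κ'` is stable under the inverse of the coefficientwise Frobenius. -/
theorem s35kp_frob_symm_mem [PerfectRing (ResidueField O) q]
    {y : LaurentSeries (ResidueField O)} (hy : y ∈ s35kp_kappa O hπ E' hE') :
    coeffMap ((frobeniusEquiv (ResidueField O) q).symm : ResidueField O →+* ResidueField O) y ∈
      s35kp_kappa O hπ E' hE' := by
  obtain ⟨z, rfl⟩ := hy
  -- `w = φ⁻¹ z`
  have hwE : coeffMap (φ.symm : L →+* L) ((z : ↥E') : LaurentSeries L) ∈ E' :=
    hφE' _ (z : ↥E').2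
  have hφw : coeffMap (φ : L →+* L)
      (coeffMap (φ.symm : L →+* L) ((z : ↥E') : LaurentSeries L)) =
        ((z : ↥E') : LaurentSeries L) := by
    rw [coeffMap_coeffMap,
      coeffMap_congr (g := RingHom.id L) (RingHom.ext fun a => φ.apply_symm_apply a), coeffMap_id]
  -- `w` is bounded
  have hwV : (⟨_, hwE⟩ : ↥E') ∈ s35kp_V O hπ E' hE' := by
    rcases (s35kp_V O hπ E' hE').mem_or_inv_mem (⟨_, hwE⟩ : ↥E') with hmem | hinv
    · exact hmem
    · by_contra hnot
      have hnu : (⟨_, hwE⟩ : ↥E')⁻¹ ∈ (s35kp_V O hπ E' hE').nonunits := by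
        rw [ValuationSubring.mem_nonunits_iff_or]
        refine Or.inr ?_
        rw [inv_inv]
        exact hnot
      have hzinv : ((z : ↥E'))⁻¹ ∈ (s35kp_V O hπ E' hE').nonunits := by
        refine s35nf_mem_nonunits π hπ.ne_zero hπ.maximalIdeal_eq E' hE' hφ
          (⟨_, hwE⟩ : ↥E')⁻¹ ((z : ↥E'))⁻¹ ?_ hnu
        push_cast
        rw [map_inv₀, hφw]
      have h1 : (1 : ↥E') ∈ (s35kp_V O hπ E' hE').nonunits := by
        have hz0 : (z : ↥E') ≠ 0 := by
          intro h0
          apply hnot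
          have hw0 : (⟨_, hwE⟩ : ↥E') = 0 := by
            apply Subtype.ext
            show coeffMap (φ.symm : L →+* L) ((z : ↥E') : LaurentSeries L) = 0
            rw [h0]
            exact map_zero _
          rw [hw0]
          exact (s35kp_V O hπ E' hE').zero_mem
        have := gq_nonunits_mul (s35kp_V O hπ E' hE') hzinv z.2
        rwa [inv_mul_cancel₀ hz0] at this
      exact gq_one_not_mem_nonunits (s35kp_V O hπ E' hE') h1
  refine ⟨⟨⟨_, hwE⟩, hwV⟩, ?_⟩
  -- `Fr (red w) = red z`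
  have hwb : gq_IsBdd O L (coeffMap (φ.symm : L →+* L) ((z : ↥E') : LaurentSeries L)) := hwV
  have hres := s35nf_res hφ ⟨_, hwb⟩
  have hzz : gq_res O L ⟨coeffMap (φ : L →+* L)
      (coeffMap (φ.symm : L →+* L) ((z : ↥E') : LaurentSeries L)), s35nf_isBdd hφ hwb⟩ =
        gq_res O L ⟨((z : ↥E') : LaurentSeries L), z.2⟩ := by
    congr 1
    exact Subtype.ext hφw
  rw [hzz] at hres
  have hcomp : ((frobeniusEquiv (ResidueField O) q).symm : ResidueField O →+* ResidueField O).comp
      (frobenius (ResidueField O) q) = RingHom.id _ := by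
    ext a
    show (frobeniusEquiv (ResidueField O) q).symm (frobenius (ResidueField O) q a) = a
    rw [← frobeniusEquiv_apply, RingEquiv.symm_apply_apply]
  show gq_res O L ⟨_, hwb⟩ = coeffMap _ (gq_res O L ⟨((z : ↥E') : LaurentSeries L), z.2⟩)
  rw [hres, coeffMap_coeffMap, coeffMap_congr hcomp, coeffMap_id]

variable [PerfectRing (ResidueField O) q]

/-- **the Frobenius of `κ'`** as a semilinear automorphism. -/
def s35kp_frob : SemilinearAut (ResidueField O) ↥(s35kp_kappa O hπ E' hE') :=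
  s35kp_coeffAut (s35kp_kappa O hπ E' hE') (frobeniusEquiv (ResidueField O) q)
    (fun y hy => s35kp_frob_mem O hπ E' hE' hφ hφE hy)
    (fun y hy => s35kp_frob_symm_mem O hπ E' hE' hφ hφE hφE' hy)

theorem s35kp_frob_smul_coe (y : ↥(s35kp_kappa O hπ E' hE')) :
    ((s35kp_frob O hπ E' hE' hφ hφE hφE' • y : ↥(s35kp_kappa O hπ E' hE')) :
      LaurentSeries (ResidueField O)) =
        coeffMap (frobenius (ResidueField O) q) (y : LaurentSeries (ResidueField O)) := rfl

theorem s35kp_frob_baseAut (c : ResidueField O) :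
    SemilinearAut.baseAut (s35kp_frob O hπ E' hE' hφ hφE hφE') c = c ^ q := by
  show frobeniusEquiv (ResidueField O) q c = c ^ q
  rw [frobeniusEquiv_apply, frobenius_def]

/-- **`Fr (red z) = red (φ z)`** in `κ'`. -/
theorem s35kp_frob_smul_red (z : ↥(s35kp_V O hπ E' hE')) (z' : ↥(s35kp_V O hπ E' hE'))
    (hz' : ((z' : ↥E') : LaurentSeries L) = coeffMap (φ : L →+* L) ((z : ↥E') : LaurentSeries L)) :
    s35kp_frob O hπ E' hE' hφ hφE hφE' • s35kp_red O hπ E' hE' z = s35kp_red O hπ E' hE' z' := by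
  apply Subtype.ext
  rw [s35kp_frob_smul_coe, s35kp_red_coe, s35kp_red_coe, s35kp_redHom_apply, s35kp_redHom_apply,
    ← s35nf_res hφ ⟨((z : ↥E') : LaurentSeries L), z.2⟩]
  congr 1
  exact Subtype.ext hz'.symm

end Frob

/-! ### [ABEL] for `κ'` -/

section Abel

variable {L : Type*} [Field L] (O : ValuationSubring L) [IsDiscreteValuationRing O] {π : O}
  (hπ : Irreducible π)
  (E' : IntermediateField L (LaurentSeries L)) (hE' : E' ≤ gq_quotField O L)
  {q : ℕ} [hq : Fact q.Prime] [CharP (ResidueField O) q] [NeZero q]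
  [IsAlgClosed (ResidueField O)]
  {φ : L ≃+* L} (hφ : s35nf_FrobAt O φ q)
  (hφE : ∀ z ∈ E', coeffMap (φ : L →+* L) z ∈ E')
  (hφE' : ∀ z ∈ E', coeffMap (φ.symm : L →+* L) z ∈ E')
  (xs : LaurentSeries O) (x' : ↥E')
  (hx' : (x' : LaurentSeries L) = coeffMap (algebraMap O L) xs)
  (hFq : coeffMap (frobenius (ResidueField O) q) (coeffMap (residue O) xs) =
    coeffMap (residue O) xs)
  (hord : ¬ (q : ℤ) ∣ (coeffMap (residue O) xs).order)
  (htr : ∀ p : (ResidueField O)[X], aeval (coeffMap (residue O) xs) p = 0 → p = 0)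
  [FiniteDimensional L⟮x'⟯ ↥E']

include hx' hFq hord htr in
/-- **[ABEL] for the residue function field `κ'` of the Gauss valuation of `E'`.** -/
theorem s35kp_abel :
    haveI : ExpChar (ResidueField O) q := ExpChar.prime hq.out
    ∃ E : ℕ, 1 ≤ E ∧ ∀ m : ℕ, 1 ≤ m →
      ∀ (u₁ u₂ h h' : ↥(s35kp_kappa O hπ E' hE')) (c c' : ResidueField O),
      u₁ ≠ 0 → u₂ ≠ 0 →
      (∀ v : Place (ResidueField O) ↥(s35kp_kappa O hπ E' hE'), (m : ℤ) ∣ v.ord u₁) →
      (∀ v : Place (ResidueField O) ↥(s35kp_kappa O hπ E' hE'), (m : ℤ) ∣ v.ord u₂) →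
      u₁ * (s35kp_frob O hπ E' hE' hφ hφE hφE' • u₂) = c • h ^ m →
      (s35kp_frob O hπ E' hE' hφ hφE hφE' • u₁) * u₂ = c' • h' ^ m →
      (∃ (a : ResidueField O) (w : ↥(s35kp_kappa O hπ E' hE')), a ≠ 0 ∧ w ≠ 0 ∧
          u₁ ^ E = a • w ^ m) ∧
        ∃ (a : ResidueField O) (w : ↥(s35kp_kappa O hπ E' hE')), a ≠ 0 ∧ w ≠ 0 ∧
          u₂ ^ E = a • w ^ m := by
  haveI : ExpChar (ResidueField O) q := ExpChar.prime hq.out
  haveI := s35kp_finiteDimensional O hπ E' hE' xs x' hx' htr
  have hcoe := s35kp_xbar_coe O hπ E' hE' xs x' hx'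
  refine s35b_abel_laurent q (s35kp_kappa O hπ E' hE').val
    (x := s35kp_xbar O hπ E' hE' xs x' hx') ?_ (s35kp_frob O hπ E' hE' hφ hφE hφE') q
    hq.out.two_le (s35kp_frob_baseAut O hπ E' hE' hφ hφE hφE') ?_
  · show ¬ (q : ℤ) ∣ ((s35kp_xbar O hπ E' hE' xs x' hx' : ↥(s35kp_kappa O hπ E' hE')) :
      LaurentSeries (ResidueField O)).order
    rw [hcoe]
    exact hord
  · apply Subtype.ext
    rw [s35kp_frob_smul_coe, hcoe]
    exact hFq

end Abel

end Fermat.Agent.S35
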